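/-
S14 (helper6), package D1 sub-lemma P2: the unit-weight identity.  For a "partition of unity"
`h` on `logSpace K` with respect to the unit lattice, the weighted sum over the nonzero elements
of an ideal `J` of `h (logMap α) * g (N α)` equals `torsionOrder K` times the sum of `g (N I)` over
the principal ideals `I` divisible by `J`.  All sums in `ℝ≥0∞`.
-/
import Mathlib

set_option autoImplicit false

open NumberField NumberField.mixedEmbedding NumberField.Units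
  NumberField.Units.dirichletUnitTheorem
open scoped ENNReal nonZeroDivisors

noncomputable section

namespace Fermat.Agent.S14.H6

/-- Fibre counting for `ℝ≥0∞`-valued sums. -/
theorem tsum_comp_eq_card_mul {X Y : Type*} (φ : X → Y) (m : ℕ)
    (hm : ∀ y, ENat.card {x // φ x = y} = m) (F : Y → ℝ≥0∞) :
    ∑' x, F (φ x) = m * ∑' y, F y := by
  rw [← (Equiv.sigmaFiberEquiv φ).tsum_eq,
    ENNReal.tsum_sigma' (f := fun c => F (φ ((Equiv.sigmaFiberEquiv φ) c))),
    ← ENNReal.tsum_mul_left]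
  congr 1
  ext y
  have h1 : ∀ x : {x // φ x = y}, F (φ ((Equiv.sigmaFiberEquiv φ) ⟨y, x⟩)) = F y := fun x => by
    simp [x.2]
  simp_rw [h1, ENNReal.tsum_const, hm]
  rfl

variable (K : Type*) [Field K] [NumberField K]

/-- The fibres of the logarithmic embedding have `torsionOrder K` elements. -/
theorem enatCard_fiber_logEmbedding (γ : unitLattice K) :
    ENat.card {u : (𝓞 K)ˣ // (⟨logEmbedding K (Additive.ofMul u),
      Submodule.mem_map_of_mem trivial⟩ : unitLattice K) = γ} = torsionOrder K := by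
  obtain ⟨x, -, hx⟩ := γ.2
  set u₀ : (𝓞 K)ˣ := Additive.toMul x with hu₀
  have hx' : logEmbedding K (Additive.ofMul u₀) = (γ : logSpace K) := hx
  have key : ∀ u : (𝓞 K)ˣ, (⟨logEmbedding K (Additive.ofMul u),
      Submodule.mem_map_of_mem trivial⟩ : unitLattice K) = γ ↔ u * u₀⁻¹ ∈ torsion K := by
    intro u
    rw [← logEmbedding_eq_zero_iff, Subtype.ext_iff]
    show logEmbedding K (Additive.ofMul u) = (γ : logSpace K) ↔ _
    rw [← hx', ofMul_mul, map_add, ofMul_inv, map_neg, ← sub_eq_add_neg, sub_eq_zero]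
  let e : {u : (𝓞 K)ˣ // (⟨logEmbedding K (Additive.ofMul u),
      Submodule.mem_map_of_mem trivial⟩ : unitLattice K) = γ} ≃ torsion K :=
    { toFun := fun u => ⟨u.1 * u₀⁻¹, (key u.1).mp u.2⟩
      invFun := fun t => ⟨t.1 * u₀, (key _).mpr (by simp)⟩
      left_inv := fun u => by simp
      right_inv := fun t => by simp }
  rw [ENat.card_congr e, ENat.card_eq_coe_natCard]
  rfl

/-- Sum over the units of a function of the logarithmic embedding. -/
theorem tsum_units_logEmbedding (F : unitLattice K → ℝ≥0∞) :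
    ∑' u : (𝓞 K)ˣ, F ⟨logEmbedding K (Additive.ofMul u), Submodule.mem_map_of_mem trivial⟩
      = torsionOrder K * ∑' γ : unitLattice K, F γ :=
  tsum_comp_eq_card_mul _ _ (enatCard_fiber_logEmbedding K) F

variable {K}

/-- The nonzero elements of the ideal `J`. -/
abbrev IdealNZ (J : (Ideal (𝓞 K))⁰) : Type _ :=
  {α : 𝓞 K // α ∈ (J : Ideal (𝓞 K)) ∧ α ≠ 0}

/-- The principal ideals divisible by `J`. -/
abbrev PrincMult (J : (Ideal (𝓞 K))⁰) : Type _ :=
  {I : (Ideal (𝓞 K))⁰ // (J : Ideal (𝓞 K)) ∣ I ∧ (I : Ideal (𝓞 K)).IsPrincipal}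

/-- `α ↦ (α)`. -/
def spanMap (J : (Ideal (𝓞 K))⁰) (α : IdealNZ J) : PrincMult J :=
  ⟨⟨Ideal.span {α.1}, mem_nonZeroDivisors_iff_ne_zero.mpr
      (by rw [Ne, Ideal.zero_eq_bot, Ideal.span_singleton_eq_bot]; exact α.2.2)⟩,
    Ideal.dvd_iff_le.mpr ((Ideal.span_singleton_le_iff_mem _).mpr α.2.1), ⟨α.1, rfl⟩⟩

theorem spanMap_surjective (J : (Ideal (𝓞 K))⁰) : Function.Surjective (spanMap J) := by
  rintro ⟨I, hJI, ⟨a, ha⟩⟩
  have ha' : (I : Ideal (𝓞 K)) = Ideal.span {a} := ha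
  refine ⟨⟨a, ?_, ?_⟩, ?_⟩
  · have h1 : (I : Ideal (𝓞 K)) ≤ J := Ideal.dvd_iff_le.mp hJI
    exact h1 (ha' ▸ Ideal.mem_span_singleton_self a)
  · rintro rfl
    have h2 : (I : Ideal (𝓞 K)) ≠ ⊥ := mem_nonZeroDivisors_iff_ne_zero.mp I.2
    exact h2 (by rw [ha', Ideal.span_singleton_eq_bot])
  · apply Subtype.ext
    apply Subtype.ext
    exact ha'.symm

/-- The generators of a principal ideal form one free orbit of the unit group. -/
def fiberEquiv (J : (Ideal (𝓞 K))⁰) (a : IdealNZ J) :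
    (𝓞 K)ˣ ≃ {α : IdealNZ J // spanMap J α = spanMap J a} where
  toFun u := ⟨⟨u * a.1, Ideal.mul_mem_left _ _ a.2.1, mul_ne_zero u.ne_zero a.2.2⟩, by
    apply Subtype.ext
    apply Subtype.ext
    show Ideal.span {(u : 𝓞 K) * a.1} = Ideal.span {a.1}
    exact Ideal.span_singleton_mul_left_unit u.isUnit _⟩
  invFun α := by
    have h : Ideal.span {α.1.1} = Ideal.span {a.1} :=
      congrArg (fun I : PrincMult J => ((I.1 : (Ideal (𝓞 K))⁰) : Ideal (𝓞 K))) α.2
    exact (Ideal.span_singleton_eq_span_singleton.mp h).symm.choose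
  left_inv u := by
    have h : Ideal.span {(u : 𝓞 K) * a.1} = Ideal.span {a.1} :=
      Ideal.span_singleton_mul_left_unit u.isUnit _
    have h2 := (Ideal.span_singleton_eq_span_singleton.mp h).symm.choose_spec
    apply Units.ext
    have h3 : a.1 * ((Ideal.span_singleton_eq_span_singleton.mp h).symm.choose : 𝓞 K)
        = a.1 * (u : 𝓞 K) := by rw [h2, mul_comm]
    exact mul_left_cancel₀ a.2.2 h3
  right_inv α := by
    have h : Ideal.span {α.1.1} = Ideal.span {a.1} :=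
      congrArg (fun I : PrincMult J => ((I.1 : (Ideal (𝓞 K))⁰) : Ideal (𝓞 K))) α.2
    have h2 := (Ideal.span_singleton_eq_span_singleton.mp h).symm.choose_spec
    apply Subtype.ext
    apply Subtype.ext
    show ((Ideal.span_singleton_eq_span_singleton.mp h).symm.choose : 𝓞 K) * a.1 = α.1.1
    rw [mul_comm]
    exact h2

theorem norm_mixedEmbedding_ne_zero {a : 𝓞 K} (ha : a ≠ 0) :
    mixedEmbedding.norm (mixedEmbedding K (a : K)) ≠ 0 := by
  rw [mixedEmbedding.norm_eq_norm, Ne, Rat.cast_eq_zero, abs_eq_zero, Algebra.norm_eq_zero_iff]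
  exact_mod_cast ha

theorem logMap_unit_mul (u : (𝓞 K)ˣ) {a : 𝓞 K} (ha : a ≠ 0) :
    logMap (mixedEmbedding K (((u : 𝓞 K) * a : 𝓞 K) : K))
      = logEmbedding K (Additive.ofMul u) + logMap (mixedEmbedding K (a : K)) := by
  rw [← logMap_unit_smul u (norm_mixedEmbedding_ne_zero ha), unitSMul_smul, ← map_mul]
  rfl

/-- **Unit-weight identity (P2a).** -/
theorem tsum_weight_eq (h : logSpace K → ℝ≥0∞)
    (hh : ∀ y : logSpace K, ∑' γ : unitLattice K, h (y + γ) = 1)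
    (g : ℕ → ℝ≥0∞) (J : (Ideal (𝓞 K))⁰) :
    ∑' α : IdealNZ J, h (logMap (mixedEmbedding K ((α : 𝓞 K) : K))) *
        g (Ideal.absNorm (Ideal.span {(α : 𝓞 K)}))
      = (torsionOrder K : ℝ≥0∞) *
        ∑' I : PrincMult J, g (Ideal.absNorm ((I : (Ideal (𝓞 K))⁰) : Ideal (𝓞 K))) := by
  rw [← (Equiv.sigmaFiberEquiv (spanMap J)).tsum_eq,
    ENNReal.tsum_sigma' (f := fun c => h (logMap (mixedEmbedding K
      (((Equiv.sigmaFiberEquiv (spanMap J) c : IdealNZ J) : 𝓞 K) : K))) *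
        g (Ideal.absNorm (Ideal.span {((Equiv.sigmaFiberEquiv (spanMap J) c : IdealNZ J) : 𝓞 K)}))),
    ← ENNReal.tsum_mul_left]
  congr 1
  ext b
  obtain ⟨a, rfl⟩ := spanMap_surjective J b
  rw [← (fiberEquiv J a).tsum_eq]
  have h1 : ∀ u : (𝓞 K)ˣ,
      h (logMap (mixedEmbedding K (((Equiv.sigmaFiberEquiv (spanMap J)
          ⟨spanMap J a, fiberEquiv J a u⟩ : IdealNZ J) : 𝓞 K) : K))) *
        g (Ideal.absNorm (Ideal.span {((Equiv.sigmaFiberEquiv (spanMap J)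
          ⟨spanMap J a, fiberEquiv J a u⟩ : IdealNZ J) : 𝓞 K)}))
      = h (logMap (mixedEmbedding K ((a : 𝓞 K) : K)) +
            ((⟨logEmbedding K (Additive.ofMul u), Submodule.mem_map_of_mem trivial⟩ :
              unitLattice K) : logSpace K)) *
          g (Ideal.absNorm (Ideal.span {(a : 𝓞 K)})) := by
    intro u
    have e1 : ((Equiv.sigmaFiberEquiv (spanMap J) ⟨spanMap J a, fiberEquiv J a u⟩ : IdealNZ J) :
        𝓞 K) = (u : 𝓞 K) * a.1 := rfl
    rw [e1, logMap_unit_mul u a.2.2, Ideal.span_singleton_mul_left_unit u.isUnit, add_comm]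
  simp_rw [h1]
  rw [ENNReal.tsum_mul_right,
    tsum_units_logEmbedding K (fun γ => h (logMap (mixedEmbedding K ((a : 𝓞 K) : K)) + γ)),
    hh, mul_one]
  rfl

/-- `I ↦ I * J` from the ideals of class `c` to the principal multiples of `J`,
when `J` has class `c⁻¹`. -/
def classMap (c : ClassGroup (𝓞 K)) (J : (Ideal (𝓞 K))⁰) (hJ : ClassGroup.mk0 J = c⁻¹)
    (I : {I : (Ideal (𝓞 K))⁰ // ClassGroup.mk0 I = c}) : PrincMult J :=
  ⟨I.1 * J, Dvd.intro_left _ rfl, by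
    rw [← ClassGroup.mk0_eq_one_iff (I.1 * J).2, map_mul, I.2, hJ, mul_inv_cancel]⟩

theorem classMap_bijective (c : ClassGroup (𝓞 K)) (J : (Ideal (𝓞 K))⁰)
    (hJ : ClassGroup.mk0 J = c⁻¹) : Function.Bijective (classMap c J hJ) := by
  have hJ0 : (J : Ideal (𝓞 K)) ≠ 0 := mem_nonZeroDivisors_iff_ne_zero.mp J.2
  constructor
  · intro I₁ I₂ h
    have h1 : ((I₁.1 : (Ideal (𝓞 K))⁰) : Ideal (𝓞 K)) * J = (I₂.1 : (Ideal (𝓞 K))⁰) * J :=
      congrArg (fun I : PrincMult J => ((I.1 : (Ideal (𝓞 K))⁰) : Ideal (𝓞 K))) h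
    exact Subtype.ext (Subtype.ext (mul_right_cancel₀ hJ0 h1))
  · rintro ⟨I', ⟨I'', hI''⟩, hprinc⟩
    have hI'0 : (I' : Ideal (𝓞 K)) ≠ 0 := mem_nonZeroDivisors_iff_ne_zero.mp I'.2
    have hI''0 : I'' ≠ 0 := by
      rintro rfl
      exact hI'0 (by rw [hI'', mul_zero])
    have hmem : I'' ∈ (Ideal (𝓞 K))⁰ := mem_nonZeroDivisors_iff_ne_zero.mpr hI''0
    have hprod : I' = J * ⟨I'', hmem⟩ := Subtype.ext hI''
    have h1 : ClassGroup.mk0 I' = 1 := (ClassGroup.mk0_eq_one_iff I'.2).mpr hprinc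
    have h2 : ClassGroup.mk0 (⟨I'', hmem⟩ : (Ideal (𝓞 K))⁰) = c := by
      rw [hprod, map_mul, hJ] at h1
      rw [← mul_one c, ← h1, mul_inv_cancel_left]
    refine ⟨⟨⟨I'', hmem⟩, h2⟩, ?_⟩
    apply Subtype.ext
    show (⟨I'', hmem⟩ : (Ideal (𝓞 K))⁰) * J = I'
    rw [hprod, mul_comm]

/-- **Classes and principal multiples (P2b).** -/
theorem tsum_class_eq (g : ℕ → ℝ≥0∞) (c : ClassGroup (𝓞 K)) (J : (Ideal (𝓞 K))⁰)
    (hJ : ClassGroup.mk0 J = c⁻¹) :
    ∑' I : {I : (Ideal (𝓞 K))⁰ // ClassGroup.mk0 I = c},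
        g (Ideal.absNorm ((I : (Ideal (𝓞 K))⁰) : Ideal (𝓞 K)) * Ideal.absNorm (J : Ideal (𝓞 K)))
      = ∑' I : PrincMult J, g (Ideal.absNorm ((I : (Ideal (𝓞 K))⁰) : Ideal (𝓞 K))) := by
  rw [← (Equiv.ofBijective _ (classMap_bijective c J hJ)).tsum_eq]
  refine tsum_congr fun I => ?_
  show _ = g (Ideal.absNorm (((I : (Ideal (𝓞 K))⁰) : Ideal (𝓞 K)) * (J : Ideal (𝓞 K))))
  rw [map_mul]

/-- **P2a + P2b**: the sum over a class as a weighted sum over the nonzero elements of `J`. -/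
theorem tsum_weight_eq_class (h : logSpace K → ℝ≥0∞)
    (hh : ∀ y : logSpace K, ∑' γ : unitLattice K, h (y + γ) = 1)
    (g : ℕ → ℝ≥0∞) (c : ClassGroup (𝓞 K)) (J : (Ideal (𝓞 K))⁰) (hJ : ClassGroup.mk0 J = c⁻¹) :
    ∑' α : IdealNZ J, h (logMap (mixedEmbedding K ((α : 𝓞 K) : K))) *
        g (Ideal.absNorm (Ideal.span {(α : 𝓞 K)}))
      = (torsionOrder K : ℝ≥0∞) *
        ∑' I : {I : (Ideal (𝓞 K))⁰ // ClassGroup.mk0 I = c},
          g (Ideal.absNorm ((I : (Ideal (𝓞 K))⁰) : Ideal (𝓞 K)) *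
            Ideal.absNorm (J : Ideal (𝓞 K))) := by
  rw [tsum_weight_eq h hh g J, tsum_class_eq g c J hJ]

end Fermat.Agent.S14.H6
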